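/-
GATE-L prep (TATE side): a Kolchin-type fixed vector theorem for groups all of whose elements
act with `(g - 1)^2 = 0`, in characteristic `≠ 2`.

Mathlib only.  Three forms:
* `exists_fixed_of_sub_one_sq_eq_zero`        : field, whole group;
* `exists_fixed_of_sub_one_sq_eq_zero_subgroup`: field, a subgroup;
* `exists_fixed_of_sub_one_sq_eq_zero_domain`  : free module of finite rank over a domain.
-/
import Mathlib

namespace Fermat.Agent.GL.KolchinSq

/-! ### Non-commutative algebra -/

section Ring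

variable {R : Type*} [Ring R]

/-- If `A^2 = B^2 = 0` and the three elements `A + B + AB`, `-A + B - AB`, `A - B - AB`
are square-zero, in a ring without `2`-torsion, then `A` and `B` anticommute. -/
theorem anticomm_of_sq_zero (h2 : ∀ X : R, X + X = 0 → X = 0) (A B : R)
    (hA : A * A = 0) (hB : B * B = 0)
    (h1 : (A + B + A * B) * (A + B + A * B) = 0)
    (h3 : (-A + B + -A * B) * (-A + B + -A * B) = 0)
    (h4 : (A + -B + A * -B) * (A + -B + A * -B) = 0) :
    A * B = -(B * A) := by
  -- expanded forms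
  have hAAB : A * (A * B) = 0 := by rw [← mul_assoc, hA, zero_mul]
  have hABB : A * B * B = 0 := by rw [mul_assoc, hB, mul_zero]
  have e1 : A * B + B * A + B * A * B + A * B * A + A * B * A * B = 0 := by
    have : (A + B + A * B) * (A + B + A * B)
        = A * A + A * B + A * (A * B) + (B * A + B * B + B * A * B)
          + (A * B * A + A * B * B + A * B * A * B) := by
      noncomm_ring
    rw [this, hA, hB, hAAB, hABB] at h1
    rw [← h1]; noncomm_ring
  have e2 : -(A * B) - B * A - B * A * B + A * B * A + A * B * A * B = 0 := by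
    have : (-A + B + -A * B) * (-A + B + -A * B)
        = A * A - A * B + A * (A * B) + (-(B * A) + B * B - B * A * B)
          + (A * B * A - A * B * B + A * B * A * B) := by
      noncomm_ring
    rw [this, hA, hB, hAAB, hABB] at h3
    rw [← h3]; noncomm_ring
  have e3 : -(A * B) - B * A + B * A * B - A * B * A + A * B * A * B = 0 := by
    have : (A + -B + A * -B) * (A + -B + A * -B)
        = A * A - A * B - A * (A * B) + (-(B * A) + B * B + B * A * B)
          + (-(A * B * A) + A * B * B + A * B * A * B) := by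
      noncomm_ring
    rw [this, hA, hB, hAAB, hABB] at h4
    rw [← h4]; noncomm_ring
  -- `ABA (1 + B) = 0`
  have f1 : A * B * A + A * B * A * B = 0 := by
    apply h2
    have : (A * B * A + A * B * A * B) + (A * B * A + A * B * A * B)
        = (A * B + B * A + B * A * B + A * B * A + A * B * A * B)
          + (-(A * B) - B * A - B * A * B + A * B * A + A * B * A * B) := by
      noncomm_ring
    rw [this, e1, e2, add_zero]
  have f2 : B * A * B + A * B * A * B = 0 := by
    apply h2
    have : (B * A * B + A * B * A * B) + (B * A * B + A * B * A * B)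
        = (A * B + B * A + B * A * B + A * B * A + A * B * A * B)
          + (-(A * B) - B * A + B * A * B - A * B * A + A * B * A * B) := by
      noncomm_ring
    rw [this, e1, e3, add_zero]
  have hABA : A * B * A = 0 := by
    have : A * B * A = (A * B * A + A * B * A * B) * (1 - B) + A * B * A * (B * B) := by
      noncomm_ring
    rw [this, f1, hB, zero_mul, mul_zero, add_zero]
  have hBAB : B * A * B = 0 := by
    have : B * A * B = (1 - A) * (B * A * B + A * B * A * B) + A * A * (B * A * B) := by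
      noncomm_ring
    rw [this, f2, hA, mul_zero, zero_mul, add_zero]
  have hABAB : A * B * A * B = 0 := by rw [hABA, zero_mul]
  rw [hABAB, hBAB, hABA, add_zero, add_zero, add_zero] at e1
  exact eq_neg_of_add_eq_zero_left e1

variable {G : Type*} [Group G]

/-- If `(ρ g - 1)^2 = 0` then `ρ g⁻¹ - 1 = -(ρ g - 1)`. -/
theorem map_inv_sub_one (ρ : G →* R) (g : G) (h : (ρ g - 1) * (ρ g - 1) = 0) :
    ρ g⁻¹ - 1 = -(ρ g - 1) := by
  have h1 : ρ g⁻¹ * ρ g = 1 := by rw [← map_mul, inv_mul_cancel, map_one]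
  have h2 : ρ g * (1 - (ρ g - 1)) = 1 := by
    have : ρ g * (1 - (ρ g - 1)) = 1 - (ρ g - 1) * (ρ g - 1) := by noncomm_ring
    rw [this, h, sub_zero]
  have : ρ g⁻¹ = 1 - (ρ g - 1) := by
    calc ρ g⁻¹ = ρ g⁻¹ * (ρ g * (1 - (ρ g - 1))) := by rw [h2, mul_one]
      _ = (ρ g⁻¹ * ρ g) * (1 - (ρ g - 1)) := by rw [mul_assoc]
      _ = 1 - (ρ g - 1) := by rw [h1, one_mul]
  rw [this]; noncomm_ring

theorem map_mul_sub_one (ρ : G →* R) (g h : G) :
    ρ (g * h) - 1 = (ρ g - 1) + (ρ h - 1) + (ρ g - 1) * (ρ h - 1) := by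
  rw [map_mul]; noncomm_ring

/-- **Anticommutation.** If every `ρ g - 1` is square-zero and `R` has no `2`-torsion then the
`ρ g - 1` pairwise anticommute. -/
theorem sub_one_anticomm (h2 : ∀ X : R, X + X = 0 → X = 0) (ρ : G →* R)
    (h : ∀ g, (ρ g - 1) * (ρ g - 1) = 0) (g g' : G) :
    (ρ g - 1) * (ρ g' - 1) = -((ρ g' - 1) * (ρ g - 1)) := by
  apply anticomm_of_sq_zero h2 _ _ (h g) (h g')
  · rw [← map_mul_sub_one]; exact h _
  · have := h (g⁻¹ * g')
    rw [map_mul_sub_one, map_inv_sub_one ρ g (h g)] at this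
    exact this
  · have := h (g * g'⁻¹)
    rw [map_mul_sub_one, map_inv_sub_one ρ g' (h g')] at this
    exact this

end Ring

/-! ### Common kernel vectors -/

section Field

variable {k V : Type*} [Field k] [AddCommGroup V] [Module k V] [FiniteDimensional k V]

/-- A set of pairwise anticommuting square-zero endomorphisms of a finite-dimensional vector space
has a common nonzero kernel vector in every nonzero stable subspace. -/
theorem exists_common_ker_of_anticomm (S : Set (Module.End k V))
    (hsq : ∀ A ∈ S, A * A = 0) (hanti : ∀ A ∈ S, ∀ B ∈ S, A * B = -(B * A))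
    (W : Submodule k V) (hW : W ≠ ⊥) (hstab : ∀ A ∈ S, ∀ w ∈ W, A w ∈ W) :
    ∃ v ∈ W, v ≠ 0 ∧ ∀ A ∈ S, A v = 0 := by
  induction' h : Module.finrank k W using Nat.strong_induction_on with n ih generalizing W
  by_cases hall : ∀ A ∈ S, ∀ w ∈ W, A w = 0
  · obtain ⟨v, hv, hv0⟩ := Submodule.exists_mem_ne_zero_of_ne_bot hW
    exact ⟨v, hv, hv0, fun A hA => hall A hA v hv⟩
  · push Not at hall
    obtain ⟨A, hA, w, hw, hAw⟩ := hall
    have hAA : ∀ x, A (A x) = 0 := fun x => by
      have := hsq A hA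
      calc A (A x) = (A * A) x := rfl
        _ = 0 := by rw [this]; rfl
    have hlt : W ⊓ LinearMap.ker A < W := by
      refine lt_of_le_of_ne inf_le_left fun heq => hAw ?_
      have : w ∈ W ⊓ LinearMap.ker A := by rw [heq]; exact hw
      exact LinearMap.mem_ker.mp this.2
    have hne : W ⊓ LinearMap.ker A ≠ ⊥ := by
      intro hbot
      have : A w ∈ W ⊓ LinearMap.ker A :=
        ⟨hstab A hA w hw, LinearMap.mem_ker.mpr (hAA w)⟩
      rw [hbot, Submodule.mem_bot] at this
      exact hAw this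
    have hstab' : ∀ B ∈ S, ∀ x ∈ W ⊓ LinearMap.ker A, B x ∈ W ⊓ LinearMap.ker A := by
      intro B hB x hx
      refine ⟨hstab B hB x hx.1, LinearMap.mem_ker.mpr ?_⟩
      have h1 : A (B x) = (A * B) x := rfl
      have h2 : A x = 0 := LinearMap.mem_ker.mp hx.2
      rw [h1, hanti A hA B hB]
      change -((B * A) x) = 0
      change -(B (A x)) = 0
      rw [h2, map_zero, neg_zero]
    obtain ⟨v, hv, hv0, hvk⟩ := ih (Module.finrank k ↥(W ⊓ LinearMap.ker A))
      (by rw [← h]; exact Submodule.finrank_lt_finrank_of_lt hlt) _ hne hstab' rfl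
    exact ⟨v, hv.1, hv0, hvk⟩

variable {G : Type*} [Group G]

/-- **Kolchin for `(g-1)^2 = 0`, field form.** Let `k` be a field with `2 ≠ 0`, `V` a nonzero
finite-dimensional `k`-vector space and `ρ` a representation of a group `G` on `V` such that
`(ρ g - 1)^2 = 0` for every `g`.  Then `G` has a nonzero fixed vector. -/
theorem exists_fixed_of_sub_one_sq_eq_zero (h2 : (2 : k) ≠ 0) [Nontrivial V]
    (ρ : G →* Module.End k V) (h : ∀ g, (ρ g - 1) * (ρ g - 1) = 0) :
    ∃ v : V, v ≠ 0 ∧ ∀ g, ρ g v = v := by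
  have h2' : ∀ X : Module.End k V, X + X = 0 → X = 0 := by
    intro X hX
    have : (2 : k) • X = 0 := by rw [two_smul]; exact hX
    exact (smul_eq_zero.mp this).resolve_left h2
  have hanti := sub_one_anticomm h2' ρ h
  obtain ⟨v, -, hv0, hv⟩ := exists_common_ker_of_anticomm
    (Set.range fun g => ρ g - 1)
    (by rintro _ ⟨g, rfl⟩; exact h g)
    (by rintro _ ⟨g, rfl⟩ _ ⟨g', rfl⟩; exact hanti g g')
    (⊤ : Submodule k V) top_ne_bot (fun _ _ _ _ => Submodule.mem_top)
  refine ⟨v, hv0, fun g => ?_⟩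
  have := hv (ρ g - 1) ⟨g, rfl⟩
  rw [LinearMap.sub_apply, sub_eq_zero] at this
  exact this

/-- **Kolchin for `(g-1)^2 = 0`, subgroup form.** -/
theorem exists_fixed_of_sub_one_sq_eq_zero_subgroup (h2 : (2 : k) ≠ 0) [Nontrivial V]
    (ρ : G →* Module.End k V) (I : Subgroup G) (h : ∀ g ∈ I, (ρ g - 1) * (ρ g - 1) = 0) :
    ∃ v : V, v ≠ 0 ∧ ∀ g ∈ I, ρ g v = v := by
  obtain ⟨v, hv0, hv⟩ := exists_fixed_of_sub_one_sq_eq_zero h2 (ρ.comp I.subtype)
    (fun g => h g g.2)
  exact ⟨v, hv0, fun g hg => hv ⟨g, hg⟩⟩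

end Field

/-! ### Free modules over a domain -/

section Domain

open TensorProduct

variable {O M G : Type*} [CommRing O] [IsDomain O] [AddCommGroup M] [Module O M]
  [Module.Free O M] [Module.Finite O M] [Group G]

/-- **Kolchin for `(g-1)^2 = 0`, domain form.** Let `O` be a domain with `2 ≠ 0`, `M` a nonzero
free `O`-module of finite rank and `ρ` a representation of a group `G` on `M` such that
`(ρ g - 1)^2 = 0` for every `g`.  Then `G` has a nonzero fixed vector in `M`. -/
theorem exists_fixed_of_sub_one_sq_eq_zero_domain (h2 : (2 : O) ≠ 0) [Nontrivial M]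
    (ρ : G →* Module.End O M) (h : ∀ g, (ρ g - 1) * (ρ g - 1) = 0) :
    ∃ v : M, v ≠ 0 ∧ ∀ g, ρ g v = v := by
  let K := FractionRing O
  let ι : M →ₗ[O] K ⊗[O] M := TensorProduct.mk O K M 1
  have hιinj : Function.Injective ι := by
    intro x y hxy
    obtain ⟨c, hc⟩ := (IsLocalizedModule.eq_iff_exists (nonZeroDivisors O) ι).mp hxy
    have hc0 : (c : O) ≠ 0 := nonZeroDivisors.coe_ne_zero c
    exact (smul_right_inj hc0).mp hc
  let Φ : Module.End O M →ₐ[O] Module.End K (K ⊗[O] M) := Module.End.baseChangeHom O K M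
  have hΦ : ∀ (f : Module.End O M) (m : M), Φ f (ι m) = ι (f m) := by
    intro f m
    change (LinearMap.baseChange K f) ((1 : K) ⊗ₜ[O] m) = (1 : K) ⊗ₜ[O] f m
    exact LinearMap.baseChange_tmul _ _ _
  have hnt : Nontrivial (K ⊗[O] M) := hιinj.nontrivial
  have h2K : (2 : K) ≠ 0 := by
    have h2' : (2 : K) = algebraMap O K 2 := (map_ofNat (algebraMap O K) 2).symm
    rw [h2']
    exact (map_ne_zero_iff _ (IsFractionRing.injective O K)).mpr h2
  obtain ⟨v, hv0, hv⟩ := exists_fixed_of_sub_one_sq_eq_zero h2K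
    ((Φ : Module.End O M →* Module.End K (K ⊗[O] M)).comp ρ) (fun g => by
      have := congrArg Φ (h g)
      rw [map_mul, map_sub, map_one, map_zero] at this
      exact this)
  obtain ⟨⟨m, s⟩, hs⟩ := IsLocalizedModule.surj (nonZeroDivisors O) ι v
  have hs' : (s : O) • v = ι m := hs
  have hs0 : (s : O) ≠ 0 := nonZeroDivisors.coe_ne_zero s
  refine ⟨m, ?_, fun g => hιinj ?_⟩
  · rintro rfl
    rw [map_zero, ← algebraMap_smul K (s : O) v] at hs'
    rcases smul_eq_zero.mp hs' with h0 | h0
    · exact hs0 ((map_eq_zero_iff _ (IsFractionRing.injective O K)).mp h0)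
    · exact hv0 h0
  · have hvg : Φ (ρ g) v = v := hv g
    rw [← hΦ, ← hs', LinearMap.map_smul_of_tower, hvg]

/-- Subgroup form of `exists_fixed_of_sub_one_sq_eq_zero_domain`. -/
theorem exists_fixed_of_sub_one_sq_eq_zero_domain_subgroup (h2 : (2 : O) ≠ 0) [Nontrivial M]
    (ρ : G →* Module.End O M) (I : Subgroup G) (h : ∀ g ∈ I, (ρ g - 1) * (ρ g - 1) = 0) :
    ∃ v : M, v ≠ 0 ∧ ∀ g ∈ I, ρ g v = v := by
  obtain ⟨v, hv0, hv⟩ := exists_fixed_of_sub_one_sq_eq_zero_domain h2 (ρ.comp I.subtype)
    (fun g => h g g.2)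
  exact ⟨v, hv0, fun g hg => hv ⟨g, hg⟩⟩

end Domain

/-! ### Characteristic polynomial form (Cayley–Hamilton bridge) -/

section Charpoly

open Polynomial

variable {O M G : Type*} [CommRing O] [AddCommGroup M] [Module O M]
  [Module.Free O M] [Module.Finite O M] [Group G]

/-- Cayley–Hamilton: if the characteristic polynomial of `f` is `(X - 1)^2` then `(f - 1)^2 = 0`. -/
theorem sub_one_sq_eq_zero_of_charpoly (f : Module.End O M)
    (h : LinearMap.charpoly f = (X - 1) ^ 2) : (f - 1) * (f - 1) = 0 := by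
  have := LinearMap.aeval_self_charpoly f
  rw [h, map_pow, map_sub, aeval_X, map_one, sq] at this
  exact this

/-- **Kolchin, charpoly form.** If every element of the subgroup `I` acts on the nonzero free
module `M` of finite rank over the domain `O` (with `2 ≠ 0`) with characteristic polynomial
`(X - 1)^2`, then `I` has a nonzero fixed vector. -/
theorem exists_fixed_of_charpoly_eq_sub_one_sq [IsDomain O] (h2 : (2 : O) ≠ 0) [Nontrivial M]
    (ρ : G →* Module.End O M) (I : Subgroup G)
    (h : ∀ g ∈ I, LinearMap.charpoly (ρ g) = (X - 1) ^ 2) :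
    ∃ v : M, v ≠ 0 ∧ ∀ g ∈ I, ρ g v = v :=
  exists_fixed_of_sub_one_sq_eq_zero_domain_subgroup h2 ρ I
    (fun g hg => sub_one_sq_eq_zero_of_charpoly _ (h g hg))

end Charpoly

end Fermat.Agent.GL.KolchinSq
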