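/-
GATE-L / PREP node NON-EIS (helper2).

The Eisenstein representation `1 ⊕ χ_cyc` over a complete local ring `𝒪` of residue
characteristic `p` as a `GaloisRepAdic 𝒪`, its Frobenius characteristic polynomials
`X² - (ℓ + 1) X + ℓ`, and the fact that its residual representation is NOT absolutely irreducible.

Consequence (`exists_prime_ne_succ`, in the shape of the `hres` binder of the frozen S36):
if every `ρ` with the Frobenius charpolys `X² - θ(T_ℓ) X + ℓ` has absolutely irreducible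
reduction, then `θ(T_ℓ) ≠ ℓ + 1` for some prime `ℓ ∉ S`: the eigensystem is NOT Eisenstein.
This is the input of the repair (R2) of report 204 (d): `vert` is Hecke-Eisenstein
(`T_ℓ` acts by `ℓ + 1`), so `(θ(T_ℓ) - ℓ - 1) · vert = 0` forces `vert = 0` on the `θ`-part.
-/
import Mathlib
import Fermat.Prelude.Def_CuspForm_HeckeGaloisRepDatum
import Fermat.Prelude.Def_GaloisRep_LocalConditions
import Fermat.Prelude.Def_GaloisRep_Residual
import Fermat.Agent.GJ.Cyc.TateCyc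

set_option autoImplicit false

noncomputable section

namespace Fermat.Agent.GL.NonEis

open IsLocalRing Polynomial TensorProduct

local notation "GQ" => (AlgebraicClosure ℚ ≃ₐ[ℚ] AlgebraicClosure ℚ)

section Diag

variable {𝒪 : Type} [CommRing 𝒪]

/-- the diagonal matrix `diag(1, c)` as an endomorphism of `Fin 2 → 𝒪` -/
def diagEnd (c : 𝒪) : Module.End 𝒪 (Fin 2 → 𝒪) :=
  Matrix.toLin' (Matrix.diagonal ![1, c])

theorem diagEnd_apply (c : 𝒪) (v : Fin 2 → 𝒪) : diagEnd c v = ![v 0, c * v 1] := by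
  ext i
  fin_cases i <;> simp [diagEnd, Matrix.mulVec_diagonal]

theorem diagEnd_one : diagEnd (1 : 𝒪) = 1 := by
  refine LinearMap.ext fun v => funext fun i => ?_
  rw [diagEnd_apply]
  fin_cases i <;> simp

theorem diagEnd_mul (c d : 𝒪) : diagEnd (c * d) = diagEnd c * diagEnd d := by
  refine LinearMap.ext fun v => funext fun i => ?_
  rw [Module.End.mul_apply, diagEnd_apply, diagEnd_apply, diagEnd_apply]
  fin_cases i <;> simp [mul_assoc]

theorem diagEnd_charpoly [Nontrivial 𝒪] (c : 𝒪) :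
    LinearMap.charpoly (diagEnd c) = X ^ 2 - C (c + 1) * X + C c := by
  have h := LinearMap.charpoly_toMatrix (diagEnd c) (Pi.basisFun 𝒪 (Fin 2))
  rw [← h, LinearMap.toMatrix_eq_toMatrix', diagEnd, LinearMap.toMatrix'_toLin',
    Matrix.charpoly_fin_two]
  simp [add_comm]

/-- the first coordinate line is fixed -/
theorem diagEnd_comp_single (c : 𝒪) :
    (diagEnd c) ∘ₗ (LinearMap.single 𝒪 (fun _ : Fin 2 => 𝒪) 0) =
      LinearMap.single 𝒪 (fun _ : Fin 2 => 𝒪) 0 := by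
  refine LinearMap.ext fun x => funext fun i => ?_
  rw [LinearMap.comp_apply, diagEnd_apply]
  fin_cases i <;> simp

theorem diagEnd_sub_self (c : 𝒪) (v : Fin 2 → 𝒪) :
    diagEnd c v - v = (c - 1) • (Pi.single 1 (v 1) : Fin 2 → 𝒪) := by
  refine funext fun i => ?_
  rw [Pi.sub_apply, diagEnd_apply]
  fin_cases i <;> simp [sub_mul]

end Diag

section Eis

variable (p : ℕ) [Fact p.Prime] (𝒪 : Type) [CommRing 𝒪] [IsLocalRing 𝒪]
  [IsAdicComplete (maximalIdeal 𝒪) 𝒪] (hp : (p : 𝒪) ∈ maximalIdeal 𝒪)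

/-- **the Eisenstein representation** `1 ⊕ χ_cyc` -/
def eisRep : GaloisRepAdic 𝒪 where
  V := Fin 2 → 𝒪
  finrank_eq := by simp
  ρ :=
    { toFun := fun σ => diagEnd ((Fermat.Agent.GJ.Cyc.adicCyc p 𝒪 hp σ : 𝒪ˣ) : 𝒪)
      map_one' := by rw [map_one, Units.val_one, diagEnd_one]
      map_mul' := fun σ τ => by rw [map_mul, Units.val_mul, diagEnd_mul] }
  isAdicContinuous := by
    intro n
    obtain ⟨L, hL, h⟩ := Fermat.Agent.GJ.Cyc.adicCyc_continuous p 𝒪 hp n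
    refine ⟨L, hL, fun σ hσ v => ?_⟩
    change diagEnd _ v - v ∈ _
    rw [diagEnd_sub_self]
    exact Submodule.smul_mem_smul (h σ hσ) Submodule.mem_top

theorem eisRep_rho (σ : GQ) :
    (eisRep p 𝒪 hp).ρ σ = diagEnd ((Fermat.Agent.GJ.Cyc.adicCyc p 𝒪 hp σ : 𝒪ˣ) : 𝒪) := rfl

theorem eisRep_charpoly (σ : GQ) :
    LinearMap.charpoly ((eisRep p 𝒪 hp).ρ σ) =
      X ^ 2 - C (((Fermat.Agent.GJ.Cyc.adicCyc p 𝒪 hp σ : 𝒪ˣ) : 𝒪) + 1) * X +
        C ((Fermat.Agent.GJ.Cyc.adicCyc p 𝒪 hp σ : 𝒪ˣ) : 𝒪) := by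
  rw [eisRep_rho]
  exact diagEnd_charpoly _

/-- Frobenius charpoly `X² - (ℓ + 1) X + ℓ` -/
theorem eisRep_charpoly_frob (A : ValuationSubring (AlgebraicClosure ℚ)) (l : ℕ) (hl : l.Prime)
    (hA : A.LiesOverPrime l) (hlp : l ≠ p) (σ : GQ) (hσ : A.IsFrobeniusAt σ l) :
    LinearMap.charpoly ((eisRep p 𝒪 hp).ρ σ) = X ^ 2 - C ((l : 𝒪) + 1) * X + C (l : 𝒪) := by
  rw [eisRep_charpoly, Fermat.Agent.GJ.Cyc.adicCyc_frob p 𝒪 hp A l hl hA hlp σ hσ]

end Eis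

section BaseChange

variable {𝒪 : Type} [CommRing 𝒪] (k K : Type) [Field k] [Field K] [Algebra 𝒪 k] [Algebra k K]
variable {V₁ V₂ V₃ : Type} [AddCommGroup V₁] [Module 𝒪 V₁] [AddCommGroup V₂] [Module 𝒪 V₂]
  [AddCommGroup V₃] [Module 𝒪 V₃]

/-- double base change `V ↦ K ⊗[k] (k ⊗[𝒪] V)` on linear maps -/
def bc2 (f : V₁ →ₗ[𝒪] V₂) : (K ⊗[k] (k ⊗[𝒪] V₁)) →ₗ[K] (K ⊗[k] (k ⊗[𝒪] V₂)) :=
  (f.baseChange k).baseChange K

theorem bc2_comp (g : V₂ →ₗ[𝒪] V₃) (f : V₁ →ₗ[𝒪] V₂) :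
    bc2 k K (g ∘ₗ f) = bc2 k K g ∘ₗ bc2 k K f := by
  unfold bc2
  rw [LinearMap.baseChange_comp, LinearMap.baseChange_comp]

theorem bc2_id : bc2 k K (LinearMap.id : V₁ →ₗ[𝒪] V₁) = LinearMap.id := by
  unfold bc2
  rw [LinearMap.baseChange_id, LinearMap.baseChange_id]

theorem bc2_zero : bc2 k K (0 : V₁ →ₗ[𝒪] V₂) = 0 := by
  unfold bc2
  rw [LinearMap.baseChange_zero, LinearMap.baseChange_zero]

end BaseChange

section Reducible

/-- a representation with a fixed complemented line has reducible residual representation -/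
theorem not_isAbsolutelyIrreducible_of_fixed_line {𝒪 : Type} [CommRing 𝒪] [IsLocalRing 𝒪]
    (ρ : GaloisRepAdic 𝒪) (ι ι₁ : 𝒪 →ₗ[𝒪] ρ.V) (π₀ π₁ : ρ.V →ₗ[𝒪] 𝒪)
    (h00 : π₀ ∘ₗ ι = LinearMap.id) (h11 : π₁ ∘ₗ ι₁ = LinearMap.id) (h10 : π₁ ∘ₗ ι = 0)
    (hfix : ∀ σ : GQ, ρ.ρ σ ∘ₗ ι = ι) : ¬ ρ.residual.IsAbsolutelyIrreducible := by
  intro habs
  set k := ResidueField 𝒪
  set K := AlgebraicClosure k
  -- the source of `bc2 ι` is nontrivial
  have hnt : Nontrivial (K ⊗[k] (k ⊗[𝒪] 𝒪)) := by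
    apply Module.nontrivial_of_finrank_pos (R := K)
    rw [Module.finrank_baseChange, Module.finrank_baseChange, Module.finrank_self]
    exact Nat.one_pos
  obtain ⟨y, hy⟩ := exists_ne (0 : K ⊗[k] (k ⊗[𝒪] 𝒪))
  have hstab : ∀ σ : GQ, ∀ x ∈ LinearMap.range (bc2 k K ι),
      (ρ.residual.baseChange K).ρ σ x ∈ LinearMap.range (bc2 k K ι) := by
    rintro σ x ⟨z, rfl⟩
    refine ⟨z, ?_⟩
    change bc2 k K ι z = bc2 k K (ρ.ρ σ) (bc2 k K ι z)
    rw [← LinearMap.comp_apply, ← bc2_comp, hfix]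
  rcases habs (LinearMap.range (bc2 k K ι)) hstab with hW | hW
  · -- the line is not `⊥`
    have h1 : bc2 k K ι y = 0 := (Submodule.mem_bot K).1 (hW.le ⟨y, rfl⟩)
    have h2 : bc2 k K π₀ (bc2 k K ι y) = y := by
      rw [← LinearMap.comp_apply, ← bc2_comp, h00, bc2_id, LinearMap.id_apply]
    rw [h1, map_zero] at h2
    exact hy h2.symm
  · -- the line is not `⊤`
    have h1 : bc2 k K ι₁ y ∈ LinearMap.range (bc2 k K ι) := hW.ge Submodule.mem_top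
    obtain ⟨z, hz⟩ := h1
    have h2 : bc2 k K π₁ (bc2 k K ι₁ y) = y := by
      rw [← LinearMap.comp_apply, ← bc2_comp, h11, bc2_id, LinearMap.id_apply]
    rw [← hz, ← LinearMap.comp_apply, ← bc2_comp, h10, bc2_zero, LinearMap.zero_apply] at h2
    exact hy h2.symm

variable (p : ℕ) [Fact p.Prime] (𝒪 : Type) [CommRing 𝒪] [IsLocalRing 𝒪]
  [IsAdicComplete (maximalIdeal 𝒪) 𝒪] (hp : (p : 𝒪) ∈ maximalIdeal 𝒪)

/-- the residual representation of `1 ⊕ χ_cyc` is not absolutely irreducible -/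
theorem eisRep_residual_not_isAbsolutelyIrreducible :
    ¬ (eisRep p 𝒪 hp).residual.IsAbsolutelyIrreducible :=
  not_isAbsolutelyIrreducible_of_fixed_line (eisRep p 𝒪 hp)
    (LinearMap.single 𝒪 (fun _ : Fin 2 => 𝒪) 0) (LinearMap.single 𝒪 (fun _ : Fin 2 => 𝒪) 1)
    (LinearMap.proj 0) (LinearMap.proj 1)
    (LinearMap.proj_comp_single_same 𝒪 (fun _ : Fin 2 => 𝒪) 0)
    (LinearMap.proj_comp_single_same 𝒪 (fun _ : Fin 2 => 𝒪) 1)
    (LinearMap.proj_comp_single_ne 𝒪 (fun _ : Fin 2 => 𝒪) 1 0 (by decide))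
    (fun σ => diagEnd_comp_single _)

end Reducible

section S36Shape

open CuspForm

variable {M : ℕ} [NeZero M] (lam : ℕ) [Fact lam.Prime] (S : Finset ℕ)
  (O' : Type) [CommRing O'] [IsDomain O'] [IsDiscreteValuationRing O']
  [IsAdicComplete (maximalIdeal O') O']
  (θ : heckeAlgebra M 2 (↑S : Set ℕ) →+* O')

/-- **NON-EIS** (generic form): if every `ρ` over `O'` with Frobenius charpolys
`X² - θ(T_ℓ) X + ℓ` (`ℓ ∉ S`, `ℓ ∤ M`, `ℓ ≠ lam`) has absolutely irreducible reduction, then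
`θ(T_ℓ) ≠ ℓ + 1` for some such `ℓ`. -/
theorem exists_prime_ne_succ_of_forall (hlamO' : (lam : O') ∈ maximalIdeal O')
    (hres : ∀ ρ : GaloisRepAdic O',
      (∀ (ℓ : ℕ) (hℓ : ℓ.Prime) (_ : ℓ ≠ lam) (hℓM : ¬ ℓ ∣ M) (hℓS : ℓ ∉ (↑S : Set ℕ)),
        ∀ A : ValuationSubring (AlgebraicClosure ℚ), A.LiesOverPrime ℓ →
          ∀ σ : GQ, A.IsFrobeniusAt σ ℓ →
            LinearMap.charpoly (ρ.ρ σ) =
              X ^ 2 - C (θ (heckeAlgebra.T hℓ hℓM hℓS)) * X + C ((ℓ : O')))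
      → ρ.residual.IsAbsolutelyIrreducible) :
    ∃ (ℓ : ℕ) (hℓ : ℓ.Prime) (hℓM : ¬ ℓ ∣ M) (hℓS : ℓ ∉ (↑S : Set ℕ)),
      ℓ ≠ lam ∧ θ (heckeAlgebra.T hℓ hℓM hℓS) ≠ (ℓ : O') + 1 := by
  by_contra hcon
  refine eisRep_residual_not_isAbsolutelyIrreducible lam O' hlamO' (hres _ ?_)
  intro ℓ hℓ hℓlam hℓM hℓS A hA σ hσ
  have hθ : θ (heckeAlgebra.T hℓ hℓM hℓS) = (ℓ : O') + 1 :=
    by_contra fun h => hcon ⟨ℓ, hℓ, hℓM, hℓS, hℓlam, h⟩
  rw [eisRep_charpoly_frob lam O' hlamO' A ℓ hℓ hA hℓlam σ hσ, hθ]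

/-- **NON-EIS**, literal shape of the `hres` binder of the frozen S36 (used with `O'' := O'`). -/
theorem exists_prime_ne_succ [Finite (ResidueField O')] [CharZero O']
    (hlamO' : (lam : O') ∈ maximalIdeal O')
    (chig : heckeAlgebra M 2 (↑S : Set ℕ) →+* ℂ) (iota : chig.range →+* O')
    (hres : ∀ (O'' : Type) [CommRing O''] [IsDomain O''] [IsDiscreteValuationRing O'']
      [IsAdicComplete (IsLocalRing.maximalIdeal O'') O''] [Finite (IsLocalRing.ResidueField O'')]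
      [CharZero O''] [Algebra O' O''] [Module.Finite O' O''] [IsLocalHom (algebraMap O' O'')],
      Function.Injective (algebraMap O' O'') → ∀ (ρ : GaloisRepAdic O''),
      (∀ (ℓ : ℕ) (hℓ : ℓ.Prime) (_ : ℓ ≠ lam) (hℓM : ¬ ℓ ∣ M) (hℓS : ℓ ∉ (↑S : Set ℕ)),
        ∀ A : ValuationSubring (AlgebraicClosure ℚ), A.LiesOverPrime ℓ →
          ∀ σ : AlgebraicClosure ℚ ≃ₐ[ℚ] AlgebraicClosure ℚ, A.IsFrobeniusAt σ ℓ →
            LinearMap.charpoly (ρ.ρ σ) =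
              X ^ 2 - C (algebraMap O' O'' ((iota.comp chig.rangeRestrict)
                (CuspForm.heckeAlgebra.T hℓ hℓM hℓS))) * X + C ((ℓ : O'')))
      → ρ.residual.IsAbsolutelyIrreducible ∧ ρ.residual.IsOdd) :
    ∃ (ℓ : ℕ) (hℓ : ℓ.Prime) (hℓM : ¬ ℓ ∣ M) (hℓS : ℓ ∉ (↑S : Set ℕ)),
      ℓ ≠ lam ∧ (iota.comp chig.rangeRestrict) (heckeAlgebra.T hℓ hℓM hℓS) ≠ (ℓ : O') + 1 := by
  have : IsLocalHom (algebraMap O' O') := ⟨fun _ h => h⟩
  refine exists_prime_ne_succ_of_forall lam S O' (iota.comp chig.rangeRestrict) hlamO' ?_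
  intro ρ h
  exact (hres O' (fun _ _ h => h) ρ h).1

end S36Shape

end Fermat.Agent.GL.NonEis
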