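/-
GATE-L / S36 TATE-SIDE, bridge (T5) ⟹ (T4) (helper85): **flat descent of invariants on a tower**.

`𝒯 : Lim.Tower p Λ G` (helper23's `GJ/Tate/LimAction.lean`: surjections `π n : Λ → Q n` with kernel
`pⁿ Λ`, compatible actions `ρ n` of `G` on `Q n`), `R` a FLAT `ℤ`-algebra, `p`-adically complete,
`𝒯.lim : G →* End_R (R ⊗ Λ)` the limit action.  Let `H ⊆ G` (e.g. an inertia group) and
`τ : Λ →ₗ[ℤ] Λ` (e.g. the action of a Hecke operator `t`).

* `invSub 𝒯 H k ≤ Λ` : the lattice of `x` with `π k x` fixed by `ρ k σ` for all `σ ∈ H`;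
* `mem_range_of_invariant` : an `H`-invariant `y ∈ R ⊗ Λ` lies in the image of `R ⊗ invSub 𝒯 H k`
  (flatness: tensoring with `R` commutes with the finite intersection of kernels; the finitely many
  endomorphisms `ρ k σ - 1` of the FINITE group `Q k`);
* **`bc_apply_of_invariant`** : if `τ` maps `invSub 𝒯 H k` into `pⁿ Λ` (finite-level gate) then
  `(τ ⊗ R) y ∈ pⁿ (R ⊗ Λ)` for every `H`-invariant `y`;
* **`bc_apply_eq_zero_of_invariant`** : if for every `n` there is such a `k`, then `(τ ⊗ R) y = 0`.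

This is the passage from the finite-level gate "`t` kills the image in `Kum_{pⁿ}` of the
`I_q`-invariant classes of `Kum_{p^k}`" to "`1 ⊗ t` kills `(𝒪 ⊗ Λ)^{I_q}`" needed for S36.
-/
import Mathlib
import Fermat.Agent.GJ.Tate.LimAction

set_option autoImplicit false

noncomputable section

namespace Fermat.Agent.GL.Tate.InvFlat

open TensorProduct Fermat.Agent.GJ.Tate.Lim

universe u v w

variable {p : ℕ} {Λ : Type u} [AddCommGroup Λ] {G : Type v} [Monoid G]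
variable (𝒯 : Tower.{u, v, w} p Λ G)

/-! ### the levels are finite -/

theorem pow_nsmul_Q (k : ℕ) (q : 𝒯.Q k) : (p ^ k : ℕ) • q = 0 := by
  obtain ⟨x, rfl⟩ := 𝒯.π_surj k q
  rw [← map_nsmul, 𝒯.π_eq_zero]
  exact ⟨x, rfl⟩

theorem finite_Q [Module.Finite ℤ Λ] (hp : p ≠ 0) (k : ℕ) : Finite (𝒯.Q k) := by
  have hfin : Module.Finite ℤ (𝒯.Q k) :=
    Module.Finite.of_surjective (𝒯.π k).toIntLinearMap (𝒯.π_surj k)
  refine Module.finite_of_fg_torsion (𝒯.Q k) fun q => ?_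
  have hne : ((p ^ k : ℕ) : ℤ) ≠ 0 := by
    exact_mod_cast pow_ne_zero k hp
  refine ⟨⟨((p ^ k : ℕ) : ℤ), mem_nonZeroDivisors_of_ne_zero hne⟩, ?_⟩
  change ((p ^ k : ℕ) : ℤ) • q = 0
  rw [natCast_zsmul]
  exact pow_nsmul_Q 𝒯 k q

/-! ### the difference maps and the invariant lattice -/

/-- `x ↦ e (π k x) - π k x` -/
def dmap (k : ℕ) (e : AddMonoid.End (𝒯.Q k)) : Λ →ₗ[ℤ] 𝒯.Q k :=
  ((e : 𝒯.Q k →+ 𝒯.Q k).toIntLinearMap - LinearMap.id) ∘ₗ (𝒯.π k).toIntLinearMap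

theorem dmap_apply (k : ℕ) (e : AddMonoid.End (𝒯.Q k)) (x : Λ) :
    dmap 𝒯 k e x = e (𝒯.π k x) - 𝒯.π k x := rfl

/-- the lattice of `x` whose image in `Q k` is fixed by `H` -/
def invSub (H : Set G) (k : ℕ) : Submodule ℤ Λ where
  carrier := {x | ∀ σ ∈ H, 𝒯.ρ k σ (𝒯.π k x) = 𝒯.π k x}
  add_mem' := by
    intro a b ha hb σ hσ
    rw [map_add, map_add, ha σ hσ, hb σ hσ]
  zero_mem' := by
    intro σ _
    rw [map_zero, map_zero]
  smul_mem' := by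
    intro c x hx σ hσ
    rw [map_zsmul, map_zsmul, hx σ hσ]

theorem mem_invSub {H : Set G} {k : ℕ} {x : Λ} :
    x ∈ invSub 𝒯 H k ↔ ∀ σ ∈ H, 𝒯.ρ k σ (𝒯.π k x) = 𝒯.π k x := Iff.rfl

/-- the (finite) set of endomorphisms of `Q k` coming from `H` -/
abbrev Idx (H : Set G) (k : ℕ) : Type w := {e : AddMonoid.End (𝒯.Q k) // ∃ σ ∈ H, 𝒯.ρ k σ = e}

/-- all difference maps at once -/
def dmapPi (H : Set G) (k : ℕ) : Λ →ₗ[ℤ] (Idx 𝒯 H k → 𝒯.Q k) :=
  LinearMap.pi fun e => dmap 𝒯 k e.1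

theorem ker_dmapPi (H : Set G) (k : ℕ) : LinearMap.ker (dmapPi 𝒯 H k) = invSub 𝒯 H k := by
  ext x
  rw [LinearMap.mem_ker, mem_invSub]
  constructor
  · intro h σ hσ
    have := congrFun h ⟨𝒯.ρ k σ, σ, hσ, rfl⟩
    change dmap 𝒯 k (𝒯.ρ k σ) x = 0 at this
    rw [dmap_apply, sub_eq_zero] at this
    exact this
  · intro h
    funext e
    obtain ⟨e, σ, hσ, rfl⟩ := e
    change dmap 𝒯 k (𝒯.ρ k σ) x = 0
    rw [dmap_apply, sub_eq_zero]
    exact h σ hσ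

/-! ### base change -/

variable (R : Type*) [CommRing R]

/-- `pᵏ` kills `R ⊗ Q k` -/
theorem pow_smul_tensor_Q (k : ℕ) (z : R ⊗[ℤ] 𝒯.Q k) : ((p : R) ^ k) • z = 0 := by
  induction z using TensorProduct.induction_on with
  | zero => rw [smul_zero]
  | tmul r q =>
    have h1 : ((p : R) ^ k) • (r ⊗ₜ[ℤ] q) = ((p ^ k : ℕ) • r) ⊗ₜ[ℤ] q := by
      rw [TensorProduct.smul_tmul', nsmul_eq_mul, smul_eq_mul]
      push_cast
      rfl
    rw [h1, TensorProduct.smul_tmul, pow_nsmul_Q, TensorProduct.tmul_zero]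
  | add a b ha hb => rw [smul_add, ha, hb, add_zero]

variable [Module.Free ℤ Λ] [Module.Finite ℤ Λ] [IsAdicComplete (Ideal.span {(p : R)}) R]

/-- an invariant vector is killed by the base change of every difference map coming from `H` -/
theorem lTensor_dmap_eq_zero {σ : G} (k : ℕ) (y : R ⊗[ℤ] Λ)
    (hy : 𝒯.lim (R := R) σ y = y) : (dmap 𝒯 k (𝒯.ρ k σ)).lTensor R y = 0 := by
  set φ := 𝒯.lift k σ with hφ
  have hl : 𝒯.IsLift k σ φ := 𝒯.isLift_lift k σ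
  -- `dmap = π k ∘ (φ - id)`
  have e1 : dmap 𝒯 k (𝒯.ρ k σ) = (𝒯.π k).toIntLinearMap ∘ₗ (φ - LinearMap.id) := by
    ext x
    rw [dmap_apply, LinearMap.comp_apply, LinearMap.sub_apply, LinearMap.id_apply, map_sub]
    change _ = 𝒯.π k (φ x) - 𝒯.π k x
    rw [hl x]
  -- `(bc φ - 1) y ∈ pᵏ Y`
  obtain ⟨C, hC⟩ := mem_J_iff.mp (𝒯.lim_sub_bc_mem (R := R) hl)
  have e2 : (φ - LinearMap.id).lTensor R y = -(((p : R) ^ k) • C y) := by
    have h1 := LinearMap.congr_fun hC y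
    rw [LinearMap.sub_apply, hy, LinearMap.smul_apply] at h1
    have h2 : (φ - LinearMap.id).lTensor R y = bc R φ y - y := by
      rw [LinearMap.lTensor_sub, LinearMap.sub_apply, LinearMap.lTensor_id, LinearMap.id_apply]
      rfl
    rw [h2, ← h1]
    abel
  rw [e1, LinearMap.lTensor_comp, LinearMap.comp_apply, e2, map_neg, neg_eq_zero]
  -- `π k ⊗ R` is `R`-linear and `pᵏ` kills `R ⊗ Q k`
  have e3 : (𝒯.π k).toIntLinearMap.lTensor R (((p : R) ^ k) • C y)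
      = ((p : R) ^ k) • (𝒯.π k).toIntLinearMap.lTensor R (C y) := by
    rw [← congrFun (LinearMap.baseChange_eq_ltensor (A := R) (𝒯.π k).toIntLinearMap),
      ← congrFun (LinearMap.baseChange_eq_ltensor (A := R) (𝒯.π k).toIntLinearMap), map_smul]
  rw [e3]
  exact pow_smul_tensor_Q 𝒯 R k _

variable [Module.Flat ℤ R]

/-- **Flat descent**: an `H`-invariant vector of `R ⊗ Λ` comes from `R ⊗ invSub`. -/
theorem mem_range_of_invariant (hp : p ≠ 0) (H : Set G) (k : ℕ) (y : R ⊗[ℤ] Λ)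
    (hy : ∀ σ ∈ H, 𝒯.lim (R := R) σ y = y) :
    y ∈ LinearMap.range ((invSub 𝒯 H k).subtype.lTensor R) := by
  classical
  have hfinQ : Finite (𝒯.Q k) := finite_Q 𝒯 hp k
  have hfinE : Finite (AddMonoid.End (𝒯.Q k)) :=
    Finite.of_injective (fun f : 𝒯.Q k →+ 𝒯.Q k => (f : 𝒯.Q k → 𝒯.Q k)) DFunLike.coe_injective
  have hfinI : Finite (Idx 𝒯 H k) := Subtype.finite
  have hfinI' : Fintype (Idx 𝒯 H k) := Fintype.ofFinite _
  -- exactness after tensoring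
  have hex : Function.Exact ((LinearMap.ker (dmapPi 𝒯 H k)).subtype.lTensor R)
      ((dmapPi 𝒯 H k).lTensor R) :=
    Module.Flat.lTensor_exact R (LinearMap.exact_subtype_ker_map (dmapPi 𝒯 H k))
  -- `y` is killed by `dmapPi ⊗ R`
  have hzero : (dmapPi 𝒯 H k).lTensor R y = 0 := by
    apply (TensorProduct.piRight ℤ ℤ R (fun _ : Idx 𝒯 H k => 𝒯.Q k)).injective
    rw [map_zero]
    funext e
    obtain ⟨e, σ, hσ, rfl⟩ := e
    have key : ∀ z : R ⊗[ℤ] Λ,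
        (TensorProduct.piRight ℤ ℤ R (fun _ : Idx 𝒯 H k => 𝒯.Q k))
          ((dmapPi 𝒯 H k).lTensor R z) ⟨𝒯.ρ k σ, σ, hσ, rfl⟩
          = (dmap 𝒯 k (𝒯.ρ k σ)).lTensor R z := by
      intro z
      induction z using TensorProduct.induction_on with
      | zero => simp
      | tmul r x =>
        rw [LinearMap.lTensor_tmul, LinearMap.lTensor_tmul, TensorProduct.piRight_apply,
          TensorProduct.piRightHom_tmul]
        rfl
      | add a b ha hb =>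
        rw [map_add, map_add, map_add, Pi.add_apply, ha, hb]
    rw [key y, lTensor_dmap_eq_zero 𝒯 R k y (hy σ hσ)]
    rfl
  obtain ⟨z, hz⟩ := (hex y).mp hzero
  -- transport along `ker dmapPi = invSub`
  have hle : LinearMap.ker (dmapPi 𝒯 H k) ≤ invSub 𝒯 H k := (ker_dmapPi 𝒯 H k).le
  refine ⟨(Submodule.inclusion hle).lTensor R z, ?_⟩
  rw [← hz, ← LinearMap.comp_apply, ← LinearMap.lTensor_comp]
  rfl

/-- **the finite-level gate passes to the limit**: if `τ` maps the `H`-invariant lattice at level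
`k` into `pⁿ Λ`, then `τ ⊗ R` maps `H`-invariant vectors into `pⁿ (R ⊗ Λ)`. -/
theorem bc_apply_of_invariant (hp : p ≠ 0) (H : Set G) (τ : Λ →ₗ[ℤ] Λ) (n k : ℕ)
    (hgate : ∀ x : Λ, (∀ σ ∈ H, 𝒯.ρ k σ (𝒯.π k x) = 𝒯.π k x) → 𝒯.π n (τ x) = 0)
    (y : R ⊗[ℤ] Λ) (hy : ∀ σ ∈ H, 𝒯.lim (R := R) σ y = y) :
    ∃ y' : R ⊗[ℤ] Λ, bc R τ y = ((p : R) ^ n) • y' := by
  obtain ⟨z, rfl⟩ := mem_range_of_invariant 𝒯 R hp H k y hy
  clear hy
  induction z using TensorProduct.induction_on with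
  | zero => exact ⟨0, by simp⟩
  | tmul r x =>
    obtain ⟨w, hw⟩ := (𝒯.π_eq_zero n (τ x)).mp (hgate x x.2)
    refine ⟨r ⊗ₜ[ℤ] w, ?_⟩
    rw [LinearMap.lTensor_tmul, Submodule.subtype_apply, LinearMap.baseChange_tmul, hw,
      TensorProduct.tmul_smul, TensorProduct.smul_tmul', TensorProduct.smul_tmul', nsmul_eq_mul,
      smul_eq_mul]
    push_cast
    rfl
  | add a b ha hb =>
    obtain ⟨a', ha'⟩ := ha
    obtain ⟨b', hb'⟩ := hb
    exact ⟨a' + b', by rw [map_add, map_add, ha', hb', smul_add]⟩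

/-- **`∀ n ∃ k` gate ⟹ `τ ⊗ R` kills the `H`-invariants of `R ⊗ Λ`.** -/
theorem bc_apply_eq_zero_of_invariant (hp : p ≠ 0) (H : Set G) (τ : Λ →ₗ[ℤ] Λ)
    (hgate : ∀ n : ℕ, ∃ k : ℕ, ∀ x : Λ,
      (∀ σ ∈ H, 𝒯.ρ k σ (𝒯.π k x) = 𝒯.π k x) → 𝒯.π n (τ x) = 0)
    (y : R ⊗[ℤ] Λ) (hy : ∀ σ ∈ H, 𝒯.lim (R := R) σ y = y) : bc R τ y = 0 := by
  have hc := isAdicComplete_tensor (p := p) (Λ := Λ) R
  refine IsHausdorff.haus (inferInstance : IsHausdorff (Ideal.span {(p : R)}) (R ⊗[ℤ] Λ)) _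
    fun n => ?_
  rw [SModEq.zero]
  obtain ⟨k, hk⟩ := hgate n
  obtain ⟨y', hy'⟩ := bc_apply_of_invariant 𝒯 R hp H τ n k hk y hy
  exact (mem_span_pow_smul_top_iff _ _ _).mpr ⟨y', hy'⟩

end Fermat.Agent.GL.Tate.InvFlat
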