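/-
GATE-L / S36 TATE-SIDE, bridge (T5) ⟹ (T4) at the DATUM level (helper85).

For helper17's `OfTower.ofTower` (`TateDatum` with `B = 𝒪 ⊗ 𝕋`, `Y = 𝒪 ⊗ Λ`, `gal = 𝒯.lim`):
if the Hecke operator `t` satisfies the finite-level gate

  `∀ n, ∃ k, ∀ x : Λ, (π k x is fixed by ρ k σ for all σ ∈ H) → π n (act t x) = 0`

then `1 ⊗ t ∈ B` kills every `H`-invariant vector of `Y`, and `χB (1 ⊗ t) = χ t`.
Consequently an `H`-invariant eigenvector (`b • y = χB b • y`) vanishes as soon as `χ t ≠ 0`.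
-/
import Mathlib
import Fermat.Agent.GJ.Tate.OfTower
import Fermat.Agent.GL.Tate.InvFlat

set_option autoImplicit false

noncomputable section

namespace Fermat.Agent.GL.Tate.InvDatum

open TensorProduct CuspForm Fermat.Agent.GJ.Tate Fermat.Agent.GJ.Tate.Lim
  Fermat.Agent.GJ.Tate.OfTower

variable {p N : ℕ} [NeZero N] {S : Finset ℕ}
variable {𝒪 : Type} [CommRing 𝒪]
variable {Λ : Type} [AddCommGroup Λ] [Module.Free ℤ Λ] [Module.Finite ℤ Λ]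
  [IsAdicComplete (Ideal.span {(p : 𝒪)}) 𝒪] [Module.Flat ℤ 𝒪]

/-- the finite-level gate for a Hecke operator `t` and a set `H` of Galois elements -/
def LevelGate (act : heckeAlgebra N 2 (↑S : Set ℕ) →+* Module.End ℤ Λ)
    (𝒯 : Tower.{0, 0, 0} p Λ (AlgebraicClosure ℚ ≃ₐ[ℚ] AlgebraicClosure ℚ))
    (H : Set (AlgebraicClosure ℚ ≃ₐ[ℚ] AlgebraicClosure ℚ))
    (t : heckeAlgebra N 2 (↑S : Set ℕ)) : Prop :=
  ∀ n : ℕ, ∃ k : ℕ, ∀ x : Λ,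
    (∀ σ ∈ H, 𝒯.ρ k σ (𝒯.π k x) = 𝒯.π k x) → 𝒯.π n (act t x) = 0

variable (act : heckeAlgebra N 2 (↑S : Set ℕ) →+* Module.End ℤ Λ)
  (hact : Function.Injective act)
  (𝒯 : Tower.{0, 0, 0} p Λ (AlgebraicClosure ℚ ≃ₐ[ℚ] AlgebraicClosure ℚ))
  (h : TowerHyp p N S act 𝒯) (χ : heckeAlgebra N 2 (↑S : Set ℕ) →+* 𝒪) (α : ℕ → 𝒪)
  (hα : ∀ (ℓ : ℕ) (hℓ : ℓ.Prime) (hℓN : ¬ ℓ ∣ N) (hℓS : ℓ ∉ (↑S : Set ℕ)),
    α ℓ = χ (heckeAlgebra.T hℓ hℓN hℓS))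

local notation "𝒟" => ofTower act hact 𝒯 h χ α hα

/-- the element `1 ⊗ t` of `B = 𝒪 ⊗ 𝕋` -/
def heckeElt (t : heckeAlgebra N 2 (↑S : Set ℕ)) : (𝒟).B :=
  ((1 : 𝒪) ⊗ₜ[ℤ] t : 𝒪 ⊗[ℤ] heckeAlgebra N 2 (↑S : Set ℕ))

/-- `χB (1 ⊗ t) = χ t` -/
theorem chiB_heckeElt (t : heckeAlgebra N 2 (↑S : Set ℕ)) :
    (𝒟).χB (heckeElt act hact 𝒯 h χ α hα t) = χ t := by
  change chiB 𝒪 χ ((1 : 𝒪) ⊗ₜ[ℤ] t) = χ t
  rw [chiB_tmul, one_mul]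

/-- `(1 ⊗ t) • y = (act t ⊗ 𝒪) y` -/
theorem heckeElt_smul (t : heckeAlgebra N 2 (↑S : Set ℕ)) (y : (𝒟).Y) :
    heckeElt act hact 𝒯 h χ α hα t • y = bc 𝒪 (act t) (y : 𝒪 ⊗[ℤ] Λ) := by
  change heckeMap 𝒪 act ((1 : 𝒪) ⊗ₜ[ℤ] t) y = _
  rw [heckeMap_tmul, one_smul]

/-- **the gate at the datum level**: `1 ⊗ t` kills the `H`-invariants of `Y = 𝒪 ⊗ Λ`. -/
theorem smul_eq_zero_of_invariant (hp : p ≠ 0)
    (H : Set (AlgebraicClosure ℚ ≃ₐ[ℚ] AlgebraicClosure ℚ))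
    (t : heckeAlgebra N 2 (↑S : Set ℕ)) (hgate : LevelGate act 𝒯 H t)
    (y : (𝒟).Y) (hy : ∀ σ ∈ H, (𝒟).gal σ y = y) :
    heckeElt act hact 𝒯 h χ α hα t • y = 0 := by
  rw [heckeElt_smul]
  exact InvFlat.bc_apply_eq_zero_of_invariant 𝒯 𝒪 hp H (act t) hgate y hy

/-- an `H`-invariant eigenvector vanishes when `χ t ≠ 0` (torsion-free coefficients) -/
theorem eq_zero_of_invariant_eigen [IsDomain 𝒪] (hp : p ≠ 0)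
    (H : Set (AlgebraicClosure ℚ ≃ₐ[ℚ] AlgebraicClosure ℚ))
    (t : heckeAlgebra N 2 (↑S : Set ℕ)) (hgate : LevelGate act 𝒯 H t) (hχt : χ t ≠ 0)
    (y : (𝒟).Y) (hy : ∀ σ ∈ H, (𝒟).gal σ y = y)
    (heig : ∀ b : (𝒟).B, b • y = (𝒟).χB b • y) : y = 0 := by
  have h1 := smul_eq_zero_of_invariant act hact 𝒯 h χ α hα hp H t hgate y hy
  rw [heig, chiB_heckeElt] at h1
  have : Module.IsTorsionFree 𝒪 (𝒟).Y := inferInstance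
  exact (smul_eq_zero.mp h1).resolve_left hχt

end Fermat.Agent.GL.Tate.InvDatum
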