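/-
GATE-L / S36 TATE-SIDE (helper17), ADAPTER: the END FORM of the S36 gate, in the language of the
Kummer groups only (no lattice):

  `inv36Gate_of_end` : if for ONE place `A | q`, for every `n` there is `k ≥ n` such that for every
  class `ξ ∈ Kum_{pᵏ}(F_N)` fixed by the inertia group `I(A)` the Hecke operator `t`
  (acting by `KumHecke.kumHeckeN`) kills the image `ξ mod pⁿ ∈ Kum_{pⁿ}(F_N)`
  (transition map `KumTower.trans`), then helper64's `GK.S36.S36Top.INV36Gate N S p q t`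
  (the contract of `GK.S36.S36Final.s36_of_gate`).

Also `ThetaN_trans` : the transition maps `Kum_{pᵏ} → Kum_{pⁿ}` (`n ≤ k`) are compatible with
`ThetaN`.
-/
import Mathlib
import Fermat.Agent.GK.Tate.KumHecke
import Fermat.Agent.GK.S36.S36Top

set_option autoImplicit false

noncomputable section

namespace Fermat.Agent.GL.Tate.S36End

open CuspForm
open Fermat.Agent.GJ Fermat.Agent.GJ.KumGroup Fermat.Agent.GJ.Kum.KumType Fermat.Agent.GJ.KumTower
open Fermat.Agent.GJ.J2.Lat Fermat.Agent.GJ.J2.LatAct Fermat.Agent.GJ.Tate.TowerGateCInst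
open Fermat.Agent.GK.Tate.S35Top (ThetaN)
open Fermat.Agent.GK.Tate.KumHecke Fermat.Agent.GK.S36.S36Top

/-- `ℚ̄`. -/
local notation "Qb" => AlgebraicClosure ℚ

/-- `ζ_k ^ (p^k / p^n) = ζ_n` for `n ≤ k` -/
theorem zetaPow_pow_div (p : ℕ) (hp : p ≠ 0) {n k : ℕ} (hnk : n ≤ k) :
    zetaPow p k ^ (p ^ k / p ^ n) = zetaPow p n := by
  obtain ⟨d, rfl⟩ := Nat.exists_eq_add_of_le hnk
  have hdiv : p ^ (n + d) / p ^ n = p ^ d := by
    rw [pow_add, Nat.mul_div_cancel_left _ (Nat.pos_of_ne_zero (pow_ne_zero n hp))]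
  rw [hdiv]
  unfold zetaPow
  rw [← Complex.exp_nat_mul]
  congr 1
  have h1 : ((p ^ n : ℕ) : ℂ) ≠ 0 := by exact_mod_cast pow_ne_zero n hp
  have h2 : ((p ^ d : ℕ) : ℂ) ≠ 0 := by exact_mod_cast pow_ne_zero d hp
  push_cast
  rw [pow_add]
  have h1' : ((p : ℂ) ^ n) ≠ 0 := by exact_mod_cast h1
  have h2' : ((p : ℂ) ^ d) ≠ 0 := by exact_mod_cast h2
  field_simp

variable (N : ℕ) [NeZero N] (S : Finset ℕ) (p : ℕ) [Fact p.Prime]

/-- the transition map `Kum_{pᵏ}(F_N) → Kum_{pⁿ}(F_N)`, `n ≤ k`, sends `ThetaN k` to `ThetaN n` -/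
theorem ThetaN_trans {n k : ℕ} (hnk : n ≤ k) (x : Lam N) :
    Additive.ofMul (KumTower.trans (pow_dvd_pow p hnk) (Additive.toMul (ThetaN N p k x)))
      = ThetaN N p n x := by
  have hp0 : p ≠ 0 := (Fact.out : p.Prime).ne_zero
  have : NeZero (p ^ n) := ⟨pow_ne_zero n hp0⟩
  have : NeZero (p ^ k) := ⟨pow_ne_zero k hp0⟩
  unfold ThetaN
  rw [thetaLat_trans N (p ^ k) (pow_dvd_pow p hnk)]
  exact DFunLike.congr_fun (thetaLat_congr N (p ^ n) _ _ (zetaPow_pow_div p hp0 hnk)) x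

/-- **End form of the S36 gate ⟹ `INV36Gate`.** -/
theorem inv36Gate_of_end (q : ℕ) (t : ↥(heckeAlgebra N 2 (↑S : Set ℕ)))
    (h : ∃ A : ValuationSubring (AlgebraicClosure ℚ), A.LiesOverPrime q ∧
      ∀ n : ℕ, ∃ (k : ℕ) (hnk : n ≤ k), ∀ ξ : Additive (Kum Qb (FK N) (p ^ k)),
        (∀ σ ∈ A.inertiaSubgroupIn ℚ, gal N (p ^ k) σ ξ = ξ) →
          kumHeckeN N S p n t
            (Additive.ofMul (KumTower.trans (pow_dvd_pow p hnk) (Additive.toMul ξ))) = 0) :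
    INV36Gate N S p q t := by
  obtain ⟨A, hA, hG⟩ := h
  refine ⟨A, hA, fun n => ?_⟩
  obtain ⟨k, hnk, hk⟩ := hG n
  refine ⟨k, fun x hx => ?_⟩
  have := hk (ThetaN N p k x) hx
  rw [ThetaN_trans N p hnk x, kumHeckeN_ThetaN] at this
  exact this

end Fermat.Agent.GL.Tate.S36End
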