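/-
GATE-L (S36) / TATE-side abstract brick (helper25): **Kolchin for square-zero unipotents**.

Let a group `G` act on a nonzero finitely generated torsion-free module `L` over a domain `R`
(e.g. a finite-dimensional vector space, or the eigen-quotient lattice of the Tate module over a
DVR) such that EVERY `g` satisfies `(ρ g - 1)² = 0` (this is what `a(σ) = 2`, `det = 1` give on a
module with the quadratic relation `σ + σ⁻¹ = a(σ)`).  Then there is a nonzero vector fixed by
all of `G`.

Proof: `ρ g⁻¹ = 2 - ρ g`, hence the nilpotents `N_g = ρ g - 1` ANTICOMMUTE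
(`N_g N_h + N_h N_g = 0`), hence `ker N_g` is `G`-stable; induct on the rank.

Consumer: S36 = Carayol at `q²` (report 204): if `ρ` were unipotent on `I_q`, then `I_q` would fix
a nonzero vector of the `θ`-part of the Tate module, contradicting (INV0).

Mathlib only.
-/
import Mathlib

set_option autoImplicit false

namespace Fermat.Agent.GL.Kolchin

open Module

universe u

section Algebra

variable {R : Type*} [CommRing R] {L : Type*} [AddCommGroup L] [Module R L]
variable {G : Type*} [Group G] (ρ : G →* Module.End R L)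

/-- `(ρ g - 1)² = 0` gives `ρ g⁻¹ = 2 - ρ g`. -/
theorem map_inv_eq (g : G) (hg : (ρ g - 1) * (ρ g - 1) = 0) :
    ρ g⁻¹ = 2 - ρ g := by
  have h1 : ρ g * (2 - ρ g) = 1 := by
    have : ρ g * (2 - ρ g) = 1 - (ρ g - 1) * (ρ g - 1) := by noncomm_ring
    rw [this, hg, sub_zero]
  have h2 : ρ g⁻¹ * ρ g = 1 := by rw [← map_mul, inv_mul_cancel, map_one]
  calc ρ g⁻¹ = ρ g⁻¹ * (ρ g * (2 - ρ g)) := by rw [h1, mul_one]
    _ = (ρ g⁻¹ * ρ g) * (2 - ρ g) := by rw [mul_assoc]
    _ = 2 - ρ g := by rw [h2, one_mul]

/-- The nilpotents `ρ g - 1` anticommute. -/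
theorem anticomm (h : ∀ g : G, (ρ g - 1) * (ρ g - 1) = 0) (g k : G) :
    (ρ g - 1) * (ρ k - 1) + (ρ k - 1) * (ρ g - 1) = 0 := by
  have e1 := map_inv_eq ρ (g * k) (h (g * k))
  rw [mul_inv_rev, map_mul, map_mul, map_inv_eq ρ g (h g), map_inv_eq ρ k (h k)] at e1
  -- e1 : (2 - ρ k) * (2 - ρ g) = 2 - ρ g * ρ k
  have e2 : ∀ (t x y : Module.End R L), t = 1 + 1 →
      (x - 1) * (y - 1) + (y - 1) * (x - 1) = (t - y) * (t - x) - (t - x * y) := by
    intro t x y ht
    subst ht
    noncomm_ring
  rw [e2 2 (ρ g) (ρ k) one_add_one_eq_two.symm, e1, sub_self]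

/-- `ker (ρ g - 1)` is stable under every `ρ k`. -/
theorem ker_stable (h : ∀ g : G, (ρ g - 1) * (ρ g - 1) = 0) (g k : G) {w : L}
    (hw : (ρ g - 1) w = 0) : (ρ g - 1) (ρ k w) = 0 := by
  have e := LinearMap.congr_fun (anticomm ρ h g k) w
  simp only [LinearMap.add_apply, Module.End.mul_apply, LinearMap.zero_apply] at e
  rw [hw, map_zero, add_zero] at e
  -- e : (ρ g - 1) ((ρ k - 1) w) = 0
  have : ρ k w = (ρ k - 1) w + w := by
    simp only [LinearMap.sub_apply, Module.End.one_apply]; abel
  rw [this, map_add, e, hw, add_zero]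

end Algebra

section Main

variable (R : Type*) [CommRing R] [IsDomain R] {G : Type*} [Group G]

/-- Induction engine. -/
theorem kolchin_aux : ∀ n : ℕ, ∀ (L : Type u) [AddCommGroup L] [Module R L]
    [Module.IsTorsionFree R L] [IsNoetherian R L] [Nontrivial L] (ρ : G →* Module.End R L),
    (∀ g : G, (ρ g - 1) * (ρ g - 1) = 0) → finrank R L = n →
    ∃ v : L, v ≠ 0 ∧ ∀ g : G, ρ g v = v := by
  intro n
  induction n using Nat.strong_induction_on with
  | _ n ih =>
    intro L _ _ _ _ _ ρ h hn
    by_cases htriv : ∀ g : G, ρ g = 1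
    · obtain ⟨v, hv⟩ := exists_ne (0 : L)
      exact ⟨v, hv, fun g => by rw [htriv g, Module.End.one_apply]⟩
    · rw [not_forall] at htriv
      obtain ⟨g₀, hg₀⟩ := htriv
      set N₀ : Module.End R L := ρ g₀ - 1 with hN₀
      have hN₀ne : N₀ ≠ 0 := fun h0 => hg₀ (sub_eq_zero.mp h0)
      obtain ⟨y, hy⟩ : ∃ y : L, N₀ y ≠ 0 := by
        by_contra hcon
        rw [not_exists] at hcon
        exact hN₀ne (LinearMap.ext fun y => by simpa using hcon y)
      set W : Submodule R L := LinearMap.ker N₀ with hW
      have hyW : N₀ y ∈ W := by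
        rw [hW, LinearMap.mem_ker]
        have := LinearMap.congr_fun (h g₀) y
        rw [Module.End.mul_apply, LinearMap.zero_apply] at this
        exact this
      have : Nontrivial W := ⟨⟨⟨N₀ y, hyW⟩, 0, fun h0 => hy (congrArg Subtype.val h0)⟩⟩
      -- the restricted representation
      have hstab : ∀ k : G, ∀ w ∈ W, ρ k w ∈ W := by
        intro k w hw
        rw [hW, LinearMap.mem_ker] at hw ⊢
        exact ker_stable ρ h g₀ k hw
      let ρ' : G →* Module.End R W :=
        { toFun := fun k => (ρ k).restrict (hstab k)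
          map_one' := by
            ext w
            simp
          map_mul' := by
            intro k k'
            ext w
            simp [Module.End.mul_apply] }
      have hρ' : ∀ (k : G) (w : W), ((ρ' k w : W) : L) = ρ k (w : L) := fun k w => rfl
      have h' : ∀ k : G, (ρ' k - 1) * (ρ' k - 1) = 0 := by
        intro k
        ext w
        have := LinearMap.congr_fun (h k) (w : L)
        simp only [Module.End.mul_apply, LinearMap.sub_apply, Module.End.one_apply,
          LinearMap.zero_apply, map_sub] at this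
        simp only [Module.End.mul_apply, LinearMap.sub_apply, Module.End.one_apply,
          LinearMap.zero_apply, map_sub, Submodule.coe_sub, hρ', ZeroMemClass.coe_zero]
        exact this
      -- rank drops
      have hlt : finrank R W < n := by
        have hsum := Submodule.finrank_quotient_add_finrank W
        have hq : finrank R (L ⧸ W) = finrank R (LinearMap.range N₀) :=
          (N₀.quotKerEquivRange).finrank_eq
        have : Nontrivial (LinearMap.range N₀) :=
          ⟨⟨⟨N₀ y, LinearMap.mem_range_self N₀ y⟩, 0,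
            fun h0 => hy (congrArg Subtype.val h0)⟩⟩
        have hpos : 0 < finrank R (LinearMap.range N₀) := Module.finrank_pos
        omega
      obtain ⟨v, hv, hfix⟩ := ih (finrank R W) hlt W ρ' h' rfl
      refine ⟨(v : L), fun h0 => hv (Subtype.ext h0), fun k => ?_⟩
      rw [← hρ', hfix k]

/-- **Kolchin for square-zero unipotents** (module form): a group acting on a nonzero Noetherian
torsion-free module over a domain with `(ρ g - 1)² = 0` for every `g` fixes a nonzero vector. -/
theorem exists_fixed_of_sq_zero {L : Type u} [AddCommGroup L] [Module R L]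
    [Module.IsTorsionFree R L] [IsNoetherian R L] [Nontrivial L] (ρ : G →* Module.End R L)
    (h : ∀ g : G, (ρ g - 1) * (ρ g - 1) = 0) :
    ∃ v : L, v ≠ 0 ∧ ∀ g : G, ρ g v = v :=
  kolchin_aux R (finrank R L) L ρ h rfl

/-- Subgroup form: only the elements of a subgroup `H` (e.g. an inertia group) are assumed
unipotent; the fixed vector is fixed by `H`. -/
theorem exists_fixed_of_sq_zero_subgroup {L : Type u} [AddCommGroup L] [Module R L]
    [Module.IsTorsionFree R L] [IsNoetherian R L] [Nontrivial L] (ρ : G →* Module.End R L)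
    (H : Subgroup G) (h : ∀ g ∈ H, (ρ g - 1) * (ρ g - 1) = 0) :
    ∃ v : L, v ≠ 0 ∧ ∀ g ∈ H, ρ g v = v := by
  obtain ⟨v, hv, hfix⟩ := exists_fixed_of_sq_zero R (ρ.comp H.subtype) (fun g => h g g.2)
  exact ⟨v, hv, fun g hg => hfix ⟨g, hg⟩⟩

omit [IsDomain R] in
/-- Trace form of the hypothesis: on a module with the quadratic relation
`ρ g + ρ g⁻¹ = a g • 1` (determinant one on `H`), `a g = 2` gives `(ρ g - 1)² = 0`. -/
theorem sq_zero_of_trace_two {L : Type*} [AddCommGroup L] [Module R L]
    (ρ : G →* Module.End R L) (g : G) (hg : ρ g + ρ g⁻¹ = (2 : R) • (1 : Module.End R L)) :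
    (ρ g - 1) * (ρ g - 1) = 0 := by
  have h1 : ρ g * ρ g⁻¹ = 1 := by rw [← map_mul, mul_inv_cancel, map_one]
  have h2 : ρ g⁻¹ = (2 : R) • (1 : Module.End R L) - ρ g := eq_sub_of_add_eq' hg
  have h3 : ρ g * ((2 : R) • (1 : Module.End R L) - ρ g) = 1 := by rw [← h2, h1]
  have h4 : ∀ (t x : Module.End R L), t = 1 + 1 →
      (x - 1) * (x - 1) = 1 - x * (t - x) := by
    intro t x ht
    subst ht
    noncomm_ring
  have h5 : (2 : R) • (1 : Module.End R L) = 1 + 1 := two_smul R 1
  rw [h4 _ (ρ g) h5, h3, sub_self]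

end Main

end Fermat.Agent.GL.Kolchin
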